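import Mathlib

/-!
# Transferring (generalised) eigenvectors along an equivariant linear map
-/

set_option autoImplicit false

namespace Fermat.Agent.Newforms

variable {E F σ : Type*} [AddCommGroup E] [Module ℂ E] [FiniteDimensional ℂ E] [AddCommGroup F]
  [Module ℂ F] {A : σ → Module.End ℂ E} {B : σ → Module.End ℂ F} {L : E →ₗ[ℂ] F}

/-- Commuting nilpotent-on-`f` operators on `F` which lift to commuting operators on `E`:
if `f ≠ 0` is in the image, a common null vector exists in `E`. -/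
lemma exists_common_ker (hcomm : ∀ s t, Commute (A s) (A t))
    (hL : ∀ s x, L (A s x) = B s (L x)) {x : E} (hx : L x ≠ 0)
    (hnil : ∀ s, ∃ n : ℕ, (B s ^ n) (L x) = 0) :
    ∃ y : E, y ≠ 0 ∧ ∀ s, A s y = 0 := by
  classical
  have hLpow : ∀ s (n : ℕ) z, L ((A s ^ n) z) = (B s ^ n) (L z) := by
    intro s n
    induction n with
    | zero => simp
    | succ n ih => intro z; rw [pow_succ', pow_succ', Module.End.mul_apply, Module.End.mul_apply,
        hL, ih]
  -- a minimal stable subspace whose image contains `L x`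
  obtain ⟨W, ⟨hWinv, hWx⟩, hWmin⟩ :=
    WellFounded.has_min (wellFounded_lt (α := Submodule ℂ E))
      {W : Submodule ℂ E | (∀ s, ∀ w ∈ W, A s w ∈ W) ∧ ∃ w ∈ W, L w = L x}
      ⟨⊤, fun _ _ _ => Submodule.mem_top, x, Submodule.mem_top, rfl⟩
  have hpowmem : ∀ s (n : ℕ), ∀ w ∈ W, (A s ^ n) w ∈ W := by
    intro s n
    induction n with
    | zero => simp
    | succ n ih => intro w hw; rw [pow_succ', Module.End.mul_apply]; exact hWinv s _ (ih w hw)
  have hW : ∀ s, ∀ w ∈ W, ∃ n : ℕ, (A s ^ n) w = 0 := by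
    intro s
    obtain ⟨n₀, hn₀⟩ := hnil s
    let a : Module.End ℂ W := (A s).restrict (hWinv s)
    have ha : ∀ (n : ℕ) (w : W), (((a ^ n) w : W) : E) = (A s ^ n) w := by
      intro n
      induction n with
      | zero => simp
      | succ n ih => intro w; rw [pow_succ', pow_succ', Module.End.mul_apply,
          Module.End.mul_apply]; simp [a, ih]
    obtain ⟨n, hn, hnn₀⟩ :=
      ((LinearMap.eventually_isCompl_ker_pow_range_pow a).and (Filter.eventually_ge_atTop n₀)).exists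
    have hBn : (B s ^ n) (L x) = 0 := by
      obtain ⟨m, rfl⟩ := Nat.exists_eq_add_of_le hnn₀
      rw [add_comm, pow_add, Module.End.mul_apply, hn₀, map_zero]
    obtain ⟨w₀, hw₀, hLw₀⟩ := hWx
    obtain ⟨u, hu, v, hv, huv⟩ := Submodule.mem_sup.1
      (hn.sup_eq_top.symm ▸ Submodule.mem_top : (⟨w₀, hw₀⟩ : W) ∈
        LinearMap.ker (a ^ n) ⊔ LinearMap.range (a ^ n))
    -- the range part of `w₀` is killed by `L`
    let LW : W →ₗ[ℂ] F := L.comp W.subtype
    let K : Submodule ℂ W := LinearMap.range (a ^ n) ⊓ LinearMap.ker LW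
    have hK : ∀ z ∈ K, (a ^ n) z ∈ K := fun z hz =>
      Submodule.mem_inf.2 ⟨LinearMap.mem_range_self _ z, LinearMap.mem_ker.2 <| by
        have h0 : L (z : E) = 0 := LinearMap.mem_ker.1 (Submodule.mem_inf.1 hz).2
        show L (((a ^ n) z : W) : E) = 0
        rw [ha, hLpow, h0, map_zero]⟩
    have hinjR : ∀ z ∈ LinearMap.range (a ^ n), (a ^ n) z = 0 → z = 0 := fun z hz h =>
      (Submodule.eq_bot_iff _).1 hn.disjoint.eq_bot z (Submodule.mem_inf.2 ⟨h, hz⟩)
    have hKsurj : Function.Surjective ((a ^ n).restrict hK) := by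
      refine LinearMap.surjective_of_injective ((injective_iff_map_eq_zero _).2 fun z hz => ?_)
      exact Subtype.ext (hinjR z (Submodule.mem_inf.1 z.2).1 (congrArg Subtype.val hz))
    have hvK : (a ^ n) v ∈ K := Submodule.mem_inf.2 ⟨LinearMap.mem_range_self _ v,
      LinearMap.mem_ker.2 <| by
        have h1 : (a ^ n) v = (a ^ n) (⟨w₀, hw₀⟩ : W) := by
          rw [← huv, map_add, LinearMap.mem_ker.1 hu, zero_add]
        show L (((a ^ n) v : W) : E) = 0
        rw [h1, ha, hLpow, hLw₀, hBn]⟩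
    obtain ⟨z, hz⟩ := hKsurj ⟨_, hvK⟩
    have hzv : (z : W) = v := by
      refine sub_eq_zero.1 (hinjR _ (sub_mem (Submodule.mem_inf.1 z.2).1 hv) ?_)
      rw [map_sub, sub_eq_zero]
      exact congrArg Subtype.val hz
    have hLv : L (v : E) = 0 := by
      have := LinearMap.mem_ker.1 (Submodule.mem_inf.1 z.2).2
      rwa [hzv] at this
    let W' : Submodule ℂ E := (LinearMap.ker (a ^ n)).map W.subtype
    have hW'inv : ∀ t, ∀ w ∈ W', A t w ∈ W' := by
      rintro t _ ⟨w, hw, rfl⟩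
      refine ⟨⟨A t w, hWinv t w w.2⟩, ?_, rfl⟩
      rw [SetLike.mem_coe, LinearMap.mem_ker] at hw ⊢
      refine Subtype.ext ?_
      rw [ha]
      have h0 : (A s ^ n) (w : E) = 0 := by rw [← ha, hw]; rfl
      show (A s ^ n) (A t w) = 0
      rw [← Module.End.mul_apply, ((hcomm s t).pow_left n).eq, Module.End.mul_apply, h0, map_zero]
    have hle : W' ≤ W := Submodule.map_subtype_le _ _
    have hmem : L (u : E) = L x := by
      rw [← hLw₀, show w₀ = (u : E) + v from (congrArg Subtype.val huv).symm, map_add, hLv,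
        add_zero]
    have hEq : W' = W := eq_of_le_of_not_lt hle
      (hWmin W' ⟨hW'inv, (u : E), ⟨u, hu, rfl⟩, hmem⟩)
    intro w hw
    rw [← hEq] at hw
    obtain ⟨w', hw', rfl⟩ := hw
    exact ⟨n, by rw [Submodule.subtype_apply, ← ha, LinearMap.mem_ker.1 hw']; rfl⟩
  have hW0 : W ≠ ⊥ := fun h => by
    obtain ⟨w, hw, hLw⟩ := hWx
    rw [h, Submodule.mem_bot] at hw
    exact hx (by rw [← hLw, hw, map_zero])
  obtain ⟨U, ⟨hU0, hUW, hUinv⟩, hUmin⟩ :=
    WellFounded.has_min (wellFounded_lt (α := Submodule ℂ E))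
      {U : Submodule ℂ E | U ≠ ⊥ ∧ U ≤ W ∧ ∀ s, ∀ u ∈ U, A s u ∈ U} ⟨W, hW0, le_rfl, hWinv⟩
  obtain ⟨y, hyU, hy⟩ := Submodule.exists_mem_ne_zero_of_ne_bot hU0
  refine ⟨y, hy, fun s => ?_⟩
  let U' : Submodule ℂ E := U ⊓ LinearMap.ker (A s)
  have hU'0 : U' ≠ ⊥ := by
    obtain ⟨n, hn⟩ := hW s y (hUW hyU)
    have hP : ∃ m, (A s ^ m) y = 0 := ⟨n, hn⟩
    obtain ⟨m, hm⟩ : ∃ m, Nat.find hP = m + 1 := Nat.exists_eq_succ_of_ne_zero fun h => by
      simpa [h, hy] using Nat.find_spec hP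
    refine (Submodule.ne_bot_iff _).2 ⟨(A s ^ m) y, ?_, Nat.find_min hP (by omega)⟩
    refine Submodule.mem_inf.2 ⟨?_, ?_⟩
    · clear hm
      induction m with
      | zero => simpa using hyU
      | succ m ih => rw [pow_succ', Module.End.mul_apply]; exact hUinv s _ ih
    · have := Nat.find_spec hP
      rw [hm, pow_succ', Module.End.mul_apply] at this
      exact LinearMap.mem_ker.2 this
  have hU'inv : ∀ t, ∀ u ∈ U', A t u ∈ U' := fun t u hu =>
    Submodule.mem_inf.2 ⟨hUinv t u (Submodule.mem_inf.1 hu).1, LinearMap.mem_ker.2 <| by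
      rw [← Module.End.mul_apply, (hcomm s t).eq, Module.End.mul_apply,
        LinearMap.mem_ker.1 (Submodule.mem_inf.1 hu).2, map_zero]⟩
  have hU' : U' = U :=
    eq_of_le_of_not_lt inf_le_left (hUmin U' ⟨hU'0, inf_le_left.trans hUW, hU'inv⟩)
  rw [← hU'] at hyU
  exact LinearMap.mem_ker.1 (Submodule.mem_inf.1 hyU).2

end Fermat.Agent.Newforms
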