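import Fermat.Prelude.Def_CuspForm_Newforms
import Fermat.Agent.Newforms.MainLemma
import Fermat.Agent.Newforms.AtkinLehner
import Fermat.Agent.Newforms.EigenTransfer
import Fermat.Agent.Newforms.Eigen

/-!
# Newforms: existence and multiplicity one
-/

set_option autoImplicit false

noncomputable section

open CongruenceSubgroup ModularFormClass UpperHalfPlane
open scoped MatrixGroups ModularForm

namespace Fermat.Agent.Newforms

/-- An eigenvector at level `R` for the `T_ℓ`, `ℓ ∤ M`, with eigenvalues those of `g`, makes the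
eigensystem of `g` occur at level `R`. -/
lemma occursAt_of_eigen {M R : ℕ} [NeZero M] [NeZero R] (g : CuspForm (Gamma0 M) 2)
    {h : CuspForm (Gamma0 R) 2} (hne : h ≠ 0)
    (hh : ∀ ℓ (hℓ : ℓ.Prime), ¬ ℓ ∣ M → hOp R hℓ h = qCoeff g ℓ • h) :
    CuspForm.GoodEigensystemOccursAt g M → CuspForm.GoodEigensystemOccursAt g R := fun _ => by
  obtain ⟨u, hu, hcoeff⟩ := exists_eigenform_of_eigen hne (fun ℓ => ¬ ℓ ∣ M) (qCoeff g) hh
  exact ⟨u, hu, hcoeff⟩

/-- The eigensystem of a newform has no eigenvector at a proper divisor of the level. -/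
theorem eq_zero_of_eigen_at_lower_level {M R : ℕ} [NeZero M] [NeZero R]
    {g : CuspForm (Gamma0 M) 2} (hg : g.IsNewform) (hR : R ∣ M) (hne : R ≠ M)
    {h : CuspForm (Gamma0 R) 2}
    (hh : ∀ ℓ (hℓ : ℓ.Prime), ¬ ℓ ∣ M → hOp R hℓ h = qCoeff g ℓ • h) : h = 0 :=
  by_contra fun h0 => hg.2 R hR hne
    (occursAt_of_eigen g h0 hh (CuspForm.GoodEigensystemOccursAt.refl hg.1))

/-- A generalised eigenvector of the eigensystem of a newform whose coefficients of index prime to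
the level vanish is zero. -/
theorem genEigen_eq_zero {M : ℕ} [NeZero M] {g : CuspForm (Gamma0 M) 2} (hg : g.IsNewform)
    {f : CuspForm (Gamma0 M) 2} (hf : ∀ n : ℕ, n.Coprime M → qCoeff f n = 0)
    (heig : ∀ ℓ (hℓ : ℓ.Prime), ¬ ℓ ∣ M →
      ∃ n : ℕ, ((hOp M hℓ - qCoeff g ℓ • 1) ^ n) f = 0) : f = 0 := by
  classical
  by_contra hf0
  obtain ⟨u, hu⟩ := exists_eq_sum_levelRaise f hf
  have hp : ∀ p : {p // p ∈ M.primeFactors}, (p : ℕ).Prime ∧ (p : ℕ) ∣ M := fun p =>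
    ⟨Nat.prime_of_mem_primeFactors p.2, Nat.dvd_of_mem_primeFactors p.2⟩
  have hd : ∀ p : {p // p ∈ M.primeFactors}, NeZero (M / (p : ℕ)) := fun p =>
    ⟨(Nat.div_pos (Nat.le_of_dvd (Nat.pos_of_ne_zero (NeZero.ne M)) (hp p).2) (hp p).1.pos).ne'⟩
  have hdvd : ∀ p : {p // p ∈ M.primeFactors}, M / (p : ℕ) ∣ M := fun p =>
    Nat.div_dvd_of_dvd (hp p).2
  have : ∀ p : {p // p ∈ M.primeFactors},
      FiniteDimensional ℂ (CuspForm (Gamma0 (M / (p : ℕ))) 2) := fun p =>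
    IntegralStructure.finiteDimensional_cuspForm _
  let σ := {ℓ : ℕ // ℓ.Prime ∧ ¬ ℓ ∣ M}
  let E := ∀ p : {p // p ∈ M.primeFactors}, CuspForm (Gamma0 (M / (p : ℕ))) 2
  let A : σ → Module.End ℂ E := fun s => LinearMap.pi fun p =>
    (hOp (M / (p : ℕ)) s.2.1 - qCoeff g s.1 • 1).comp (LinearMap.proj p)
  let B : σ → Module.End ℂ (CuspForm (Gamma0 M) 2) := fun s => hOp M s.2.1 - qCoeff g s.1 • 1
  let L : E →ₗ[ℂ] CuspForm (Gamma0 M) 2 := ∑ p : {p // p ∈ M.primeFactors},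
    (levelRaise (p : ℕ) (Nat.mul_div_cancel' (Nat.dvd_of_mem_primeFactors p.2)).dvd).comp
      (LinearMap.proj p)
  have hA : ∀ (s : σ) (x : E) (p : {p // p ∈ M.primeFactors}),
      A s x p = hOp (M / (p : ℕ)) s.2.1 (x p) - qCoeff g s.1 • x p := fun _ _ _ => rfl
  have hB : ∀ (s : σ) z, B s z = hOp M s.2.1 z - qCoeff g s.1 • z := fun _ _ => rfl
  have hL : ∀ x : E, L x = ∑ p : {p // p ∈ M.primeFactors},
      levelRaise (p : ℕ) (Nat.mul_div_cancel' (Nat.dvd_of_mem_primeFactors p.2)).dvd (x p) :=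
    fun x => LinearMap.sum_apply _ _ _
  have hLu : L u = f := by rw [hu, hL]
  obtain ⟨y, hy0, hy⟩ := exists_common_ker (A := A) (B := B) (L := L)
    (fun s t => by
      refine LinearMap.ext fun x => funext fun p => ?_
      have := (((hOp_commute (N := M / (p : ℕ)) s.2.1 t.2.1).sub_left
        ((Commute.one_left _).smul_left (qCoeff g s.1))).sub_right
        ((Commute.one_right _).smul_right (qCoeff g t.1))).eq
      exact LinearMap.congr_fun this (x p))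
    (fun s x => by
      rw [hB, hL, hL, map_sum, Finset.smul_sum, ← Finset.sum_sub_distrib]
      refine Finset.sum_congr rfl fun p _ => ?_
      rw [hA, map_sub, map_smul, hOp_levelRaise s.2.1 _ (fun hc => s.2.2 (hc.trans (hp p).2))
        ⟨fun hc => absurd hc s.2.2, fun hc => hc.trans (hdvd p)⟩])
    (x := u) (by rwa [hLu])
    (fun s => by rw [hLu]; exact heig s.1 s.2.1 s.2.2)
  obtain ⟨p, hp0⟩ := Function.ne_iff.1 hy0
  refine hp0 (eq_zero_of_eigen_at_lower_level hg (hdvd p)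
    (Nat.div_lt_self (Nat.pos_of_ne_zero (NeZero.ne M)) (hp p).1.one_lt).ne
    fun ℓ hℓ hℓM => ?_)
  have := congrFun (hy ⟨ℓ, hℓ, hℓM⟩) p
  rw [hA] at this
  exact sub_eq_zero.1 this

/-- An eigenvector of the `T_ℓ`, `ℓ ∤ M`, with `a₁ = 0` has `a_n = 0` for `n` prime to `M`. -/
lemma qCoeff_eq_zero_of_coprime {M : ℕ} [NeZero M] {f : CuspForm (Gamma0 M) 2} {lam : ℕ → ℂ}
    (h : ∀ ℓ (hℓ : ℓ.Prime), ¬ ℓ ∣ M → hOp M hℓ f = lam ℓ • f) (h1 : qCoeff f 1 = 0) :
    ∀ n : ℕ, n.Coprime M → qCoeff f n = 0 := by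
  intro n
  induction n using Nat.strong_induction_on with
  | h n ih =>
    intro hn
    rcases lt_or_ge n 2 with h2 | h2
    · interval_cases n
      · exact qCoeff_zero_eq f
      · exact h1
    · set ℓ := n.minFac
      have hℓ : ℓ.Prime := Nat.minFac_prime (by omega)
      obtain ⟨m, hm⟩ : ℓ ∣ n := Nat.minFac_dvd n
      have hℓM : ¬ ℓ ∣ M := fun hc =>
        hℓ.ne_one (Nat.eq_one_of_dvd_coprimes hn (Nat.minFac_dvd n) hc)
      have hm0 : 0 < m := Nat.pos_of_ne_zero fun h0 => by subst h0; omega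
      have hlt : m < n := hm ▸ lt_mul_of_one_lt_left hm0 hℓ.one_lt
      have hmM : m.Coprime M := Nat.Coprime.coprime_dvd_left (hm ▸ dvd_mul_left m ℓ) hn
      have e := (hOp_eq_smul_iff hℓ f _).1 (h ℓ hℓ hℓM) m
      rw [ih m hlt hmM, mul_zero] at e
      rw [hm, mul_comm]
      by_cases hd : ℓ ∣ m
      · rwa [if_pos hd, ih (m / ℓ) (lt_of_le_of_lt (Nat.div_le_self _ _) hlt)
          (Nat.Coprime.coprime_dvd_left (Nat.div_dvd_of_dvd hd) hmM), mul_zero, add_zero] at e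
      · rwa [if_neg hd, add_zero] at e

/-- **Multiplicity one**: a form with the same `T_ℓ`-eigenvalues, `ℓ ∤ M`, as a newform of level
`M` is a multiple of it. -/
theorem eq_smul_of_eigen {M : ℕ} [NeZero M] {g : CuspForm (Gamma0 M) 2} (hg : g.IsNewform)
    {f : CuspForm (Gamma0 M) 2}
    (hf : ∀ ℓ (hℓ : ℓ.Prime), ¬ ℓ ∣ M → hOp M hℓ f = qCoeff g ℓ • f) :
    f = qCoeff f 1 • g := by
  set u := f - qCoeff f 1 • g with hu
  have hueig : ∀ ℓ (hℓ : ℓ.Prime), ¬ ℓ ∣ M → hOp M hℓ u = qCoeff g ℓ • u := fun ℓ hℓ hℓM => by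
    rw [hu, map_sub, map_smul, hf ℓ hℓ hℓM, hOp_of_isNormalizedEigenform hg.1 hℓ, smul_sub,
      smul_comm]
  have hu1 : qCoeff u 1 = 0 := by
    have h := (coeffLin (N := M) (k := 2) 1).map_sub f (qCoeff f 1 • g)
    simp only [map_smul, coeffLin_apply, hg.1.qCoeff_one, smul_eq_mul, mul_one, sub_self] at h
    exact h
  refine sub_eq_zero.1 (genEigen_eq_zero hg (qCoeff_eq_zero_of_coprime hueig hu1)
    fun ℓ hℓ hℓM => ⟨1, ?_⟩)
  rw [pow_one, LinearMap.sub_apply, LinearMap.smul_apply, Module.End.one_apply, ← hu,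
    hueig ℓ hℓ hℓM, sub_self]

/-- The eigensystem of every normalised eigenform comes from a newform of a level dividing the
level. -/
theorem exists_newform {N : ℕ} [NeZero N] {f : CuspForm (Gamma0 N) 2}
    (hf : f.IsNormalizedEigenform) :
    ∃ (M : ℕ) (g : CuspForm (Gamma0 M) 2), M ∣ N ∧ g.IsNewform ∧
      ∀ ℓ, ℓ.Prime → ¬ ℓ ∣ N → qCoeff g ℓ = qCoeff f ℓ := by
  classical
  have hex : ∃ M, M ∣ N ∧ CuspForm.GoodEigensystemOccursAt f M :=
    ⟨N, dvd_rfl, CuspForm.GoodEigensystemOccursAt.refl hf⟩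
  obtain ⟨hMN, g, hg, hgf⟩ := Nat.find_spec hex
  refine ⟨_, g, hMN, ⟨hg, fun R hR hne ⟨u, hu, hug⟩ => ?_⟩, hgf⟩
  refine Nat.find_min hex (lt_of_le_of_ne (Nat.le_of_dvd ?_ hR) hne) ⟨hR.trans hMN, u, hu, ?_⟩
  · exact Nat.pos_of_ne_zero fun h0 => NeZero.ne N (Nat.eq_zero_of_zero_dvd (h0 ▸ hMN))
  · exact fun ℓ hℓ hℓN => (hug ℓ hℓ fun hc => hℓN (hc.trans hMN)).trans (hgf ℓ hℓ hℓN)

end Fermat.Agent.Newforms
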