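import Mathlib
import Fermat.Prelude.Def_FLTPrelim_Modularity
import Fermat.Prelude.Def_ModularForm_HeckeOperatorForms
import Fermat.Prelude.Sol.S_CuspFormClass_isZeroAt_heckeT
import Fermat.Prelude.Thm_ModularFormClass_qCoeff_heckeT
import Fermat.Prelude.Thm_ModularFormClass_qCoeff_heckeU
import Fermat.Prelude.Thm_CongruenceSubgroup_one_mem_strictPeriods_Gamma0

/-!
# Cusp functions, construction of cusp forms on `Γ₀(N)`, degeneracy maps
-/

set_option autoImplicit false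

noncomputable section

open CongruenceSubgroup UpperHalfPlane Matrix.SpecialLinearGroup ModularFormClass
open scoped MatrixGroups ModularForm Manifold

namespace Fermat.Agent.Newforms

/-- Rational matrices as real ones. -/
abbrev ratGL : GL (Fin 2) ℚ →* GL (Fin 2) ℝ :=
  Matrix.GeneralLinearGroup.map (Rat.castHom ℝ)

/-- A rational upper triangular matrix. -/
def ratTri (a b d : ℚ) (had : a * d ≠ 0) : GL (Fin 2) ℚ :=
  Matrix.GeneralLinearGroup.mkOfDetNeZero !![a, b; 0, d]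
    (by rwa [Matrix.det_fin_two_of, mul_zero, sub_zero])

/-- A holomorphic function all whose rational translates vanish at `i∞`. -/
def IsCuspFn (k : ℤ) (g : ℍ → ℂ) : Prop :=
  MDiff g ∧ ∀ M : GL (Fin 2) ℚ, IsZeroAtImInfty (g ∣[k] ratGL M)

namespace IsCuspFn

variable {k : ℤ} {g g' : ℍ → ℂ}

lemma slash (h : IsCuspFn k g) (M : GL (Fin 2) ℚ) : IsCuspFn k (g ∣[k] ratGL M) :=
  ⟨h.1.slash k _, fun M' => by rw [← SlashAction.slash_mul, ← map_mul]; exact h.2 (M * M')⟩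

lemma slash_SL (h : IsCuspFn k g) (γ : SL(2, ℤ)) : IsCuspFn k (g ∣[k] γ) := by
  have : (mapGL ℝ γ : GL (Fin 2) ℝ) = ratGL (mapGL ℚ γ) := by
    ext i j; simp [Matrix.GeneralLinearGroup.map_apply]
  rw [ModularForm.SL_slash]
  show IsCuspFn k (g ∣[k] (mapGL ℝ γ : GL (Fin 2) ℝ))
  rw [this]
  exact h.slash _

protected lemma zero : IsCuspFn k (0 : ℍ → ℂ) :=
  ⟨mdifferentiable_const, fun M => by
    rw [SlashAction.zero_slash]; exact Filter.zero_zeroAtFilter _⟩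

protected lemma add (h : IsCuspFn k g) (h' : IsCuspFn k g') : IsCuspFn k (g + g') :=
  ⟨h.1.add h'.1, fun M => by rw [SlashAction.add_slash]; exact (h.2 M).add (h'.2 M)⟩

protected lemma smul (h : IsCuspFn k g) (c : ℂ) : IsCuspFn k (c • g) :=
  ⟨h.1.const_smul c, fun M => by rw [ModularForm.smul_slash]; exact (h.2 M).smul _⟩

end IsCuspFn

variable {N : ℕ} [NeZero N] {k : ℤ}

lemma isCuspFn_cuspForm (f : CuspForm (Gamma0 N) k) : IsCuspFn k f :=
  ⟨CuspFormClass.holo f, fun M => OnePoint.isZeroAt_infty_iff.1 <|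
    P2MW.S_CuspFormClass_isZeroAt_heckeT.ModularForm.S06W2.isZeroAt_slash_ratCast f M Fact.out⟩

/-- Constructor for cusp forms on `Γ₀(N)`. -/
def mkCusp (g : ℍ → ℂ) (hinv : ∀ γ ∈ Gamma0 N, g ∣[k] γ = g) (hg : IsCuspFn k g) :
    CuspForm (Gamma0 N) k where
  toFun := g
  slash_action_eq' := by
    rintro _ ⟨γ, hγ, rfl⟩
    exact hinv γ hγ
  holo' := hg.1
  zero_at_cusps' := by
    intro c hc
    rw [OnePoint.isZeroAt_iff_forall_SL2Z (Subgroup.IsArithmetic.isCusp_iff_isCusp_SL2Z _ |>.1 hc)]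
    intro γ _
    simpa [SlashAction.slash_one] using (hg.slash_SL γ).2 1

@[simp] lemma coe_mkCusp (g : ℍ → ℂ) (hinv : ∀ γ ∈ Gamma0 N, g ∣[k] γ = g) (hg : IsCuspFn k g) :
    ⇑(mkCusp g hinv hg) = g := rfl

omit [NeZero N] in
lemma slash_gamma0_eq (f : CuspForm (Gamma0 N) k) {γ : SL(2, ℤ)} (hγ : γ ∈ Gamma0 N) :
    ⇑f ∣[k] γ = ⇑f :=
  SlashInvariantFormClass.slash_action_eq f _ ⟨γ, hγ, rfl⟩

omit [NeZero N] in
lemma mem_gamma0_iff_dvd {γ : SL(2, ℤ)} : γ ∈ Gamma0 N ↔ (N : ℤ) ∣ γ 1 0 := by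
  rw [Gamma0_mem, ZMod.intCast_zmod_eq_zero_iff_dvd]

/-- `diag(d,1) γ = γ' diag(d,1)` with `γ' = [[a, d b], [c/d, e]]`. -/
lemma exists_heckeDiag_conj {d : ℕ} (hd : d ≠ 0) (γ : SL(2, ℤ)) (c : ℤ) (hc : γ 1 0 = d * c) :
    ∃ γ' : SL(2, ℤ), γ' 1 0 = c ∧ γ' 0 0 = γ 0 0 ∧ γ' 0 1 = d * γ 0 1 ∧ γ' 1 1 = γ 1 1 ∧
      ModularForm.heckeDiagMatrix d * mapGL ℝ γ = mapGL ℝ γ' * ModularForm.heckeDiagMatrix d := by
  have hdet := Matrix.det_fin_two (γ : Matrix (Fin 2) (Fin 2) ℤ)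
  rw [γ.det_coe] at hdet
  refine ⟨⟨!![γ 0 0, d * γ 0 1; c, γ 1 1], ?_⟩, rfl, rfl, rfl, rfl, ?_⟩
  · rw [Matrix.det_fin_two_of]; rw [hc] at hdet; linear_combination -hdet
  · ext i j
    fin_cases i <;> fin_cases j <;>
      simp [Matrix.mul_apply, Fin.sum_univ_two, hd, hc, mul_comm]

lemma heckeDiagMatrix_eq_ratGL {d : ℕ} (hd : d ≠ 0) :
    ModularForm.heckeDiagMatrix d = ratGL (ratTri d 0 1 (by simpa using hd)) := by
  ext i j
  fin_cases i <;> fin_cases j <;>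
    simp [ratTri, hd, Matrix.GeneralLinearGroup.mkOfDetNeZero]

lemma heckeMatrix_eq_ratGL {d : ℕ} (hd : d ≠ 0) (j : ℕ) :
    ModularForm.heckeMatrix d j = ratGL (ratTri 1 j d (by simpa using hd)) := by
  ext a b
  fin_cases a <;> fin_cases b <;>
    simp [ratTri, hd, Matrix.GeneralLinearGroup.mkOfDetNeZero]

/-- If `g` is invariant under the subgroup of matrices `[[a, d b], [c, e]]`, `M ∣ c`, then
`g|diag(d,1)` is invariant under `Γ₀(d M)`. -/
lemma slash_heckeDiag_inv {d M : ℕ} (hd : d ≠ 0) {g : ℍ → ℂ}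
    (hg : ∀ γ : SL(2, ℤ), (M : ℤ) ∣ γ 1 0 → (d : ℤ) ∣ γ 0 1 → g ∣[k] γ = g)
    {γ : SL(2, ℤ)} (hγ : γ ∈ Gamma0 (d * M)) :
    (g ∣[k] ModularForm.heckeDiagMatrix d) ∣[k] γ = g ∣[k] ModularForm.heckeDiagMatrix d := by
  obtain ⟨c, hc⟩ := mem_gamma0_iff_dvd.1 hγ
  push_cast at hc
  obtain ⟨γ', h10, -, h01, -, he⟩ := exists_heckeDiag_conj hd γ (M * c) (by rw [hc, mul_assoc])
  rw [ModularForm.SL_slash, ← SlashAction.slash_mul]
  show g ∣[k] (ModularForm.heckeDiagMatrix d * mapGL ℝ γ) = _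
  rw [he, SlashAction.slash_mul]
  congr 1
  exact hg γ' (h10 ▸ dvd_mul_right _ _) (h01 ▸ dvd_mul_right _ _)

/-- `f ↦ (τ ↦ f (d τ))`. -/
def levelRaise {M : ℕ} (d : ℕ) (h : d * M ∣ N) :
    CuspForm (Gamma0 M) k →ₗ[ℂ] CuspForm (Gamma0 N) k :=
  haveI : NeZero M := ⟨fun hM => NeZero.ne N (by simpa [hM] using h)⟩
  have hd : d ≠ 0 := fun hd => NeZero.ne N (by simpa [hd] using h)
  { toFun := fun f =>
      mkCusp (((d : ℂ) ^ (k - 1))⁻¹ • (⇑f ∣[k] ModularForm.heckeDiagMatrix d))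
        (fun γ hγ => by
          rw [ModularForm.SL_smul_slash]
          congr 1
          refine slash_heckeDiag_inv (M := M) hd
            (fun γ' h10 _ => slash_gamma0_eq f (mem_gamma0_iff_dvd.2 h10)) ?_
          exact mem_gamma0_iff_dvd.2 ((Int.natCast_dvd_natCast.2 h).trans
            (mem_gamma0_iff_dvd.1 hγ)))
        (((heckeDiagMatrix_eq_ratGL hd) ▸ (isCuspFn_cuspForm f).slash _).smul _)
    map_add' := fun f g => DFunLike.coe_injective <| by
      simp [SlashAction.add_slash, smul_add]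
    map_smul' := fun c f => DFunLike.coe_injective <| by
      simp [ModularForm.smul_slash, ModularForm.σ_heckeDiagMatrix, smul_comm c] }

lemma levelRaise_apply {M d : ℕ} (h : d * M ∣ N) (f : CuspForm (Gamma0 M) k) (τ : ℍ) :
    levelRaise d h f τ = f (ModularForm.heckeDiagMatrix d • τ) := by
  have hd : d ≠ 0 := fun hd => NeZero.ne N (by simpa [hd] using h)
  change (((d : ℂ) ^ (k - 1))⁻¹ • (⇑f ∣[k] ModularForm.heckeDiagMatrix d)) τ = _
  rw [Pi.smul_apply, ModularForm.slash_heckeDiagMatrix_apply k hd, smul_eq_mul, ← mul_assoc,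
    inv_mul_cancel₀ (zpow_ne_zero _ (Nat.cast_ne_zero.2 hd)), one_mul]

lemma hasSum_qCoeff (f : CuspForm (Gamma0 N) k) (τ : ℍ) :
    HasSum (fun m ↦ qCoeff f m * Function.Periodic.qParam 1 τ ^ m) (f τ) :=
  ModularForm.hasSum_qExpansion f one_pos
    (CongruenceSubgroup.one_mem_strictPeriods_Gamma0 N) τ

omit [NeZero N] in
lemma qCoeff_zero_eq (f : CuspForm (Gamma0 N) k) : qCoeff f 0 = 0 :=
  CuspFormClass.qExpansion_coeff_zero f one_pos (CongruenceSubgroup.one_mem_strictPeriods_Gamma0 N)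

omit [NeZero N] in
lemma qCoeff_eq_of_hasSum (f : CuspForm (Gamma0 N) k) {c : ℕ → ℂ}
    (h : ∀ τ : ℍ, HasSum (fun m ↦ c m * Function.Periodic.qParam 1 τ ^ m) (f τ)) (m : ℕ) :
    qCoeff f m = c m :=
  (ModularFormClass.qExpansion_coeff_unique one_pos
    (CongruenceSubgroup.one_mem_strictPeriods_Gamma0 N) (f := f)
    (by simpa [smul_eq_mul] using h) m).symm

lemma eq_of_forall_qCoeff {f g : CuspForm (Gamma0 N) k} (h : ∀ n, qCoeff f n = qCoeff g n) :
    f = g := by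
  ext τ
  have hf := hasSum_qCoeff f τ
  simp only [h] at hf
  exact hf.unique (hasSum_qCoeff g τ)

lemma qCoeff_levelRaise {M d : ℕ} (h : d * M ∣ N) (f : CuspForm (Gamma0 M) k) (n : ℕ) :
    qCoeff (levelRaise d h f) n = if d ∣ n then qCoeff f (n / d) else 0 := by
  have hd : d ≠ 0 := fun hd => NeZero.ne N (by simpa [hd] using h)
  have : NeZero M := ⟨fun hM => NeZero.ne N (by simpa [hM] using h)⟩
  refine qCoeff_eq_of_hasSum _ (c := fun n => if d ∣ n then qCoeff f (n / d) else 0) (fun τ => ?_) n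
  rw [levelRaise_apply]
  have := hasSum_qCoeff f (ModularForm.heckeDiagMatrix d • τ)
  rw [← Function.Injective.hasSum_iff (f := fun m => (if d ∣ m then qCoeff f (m / d) else 0) *
      Function.Periodic.qParam 1 τ ^ m) (g := fun m => d * m) (mul_right_injective₀ hd)]
  · refine this.congr_fun fun m => ?_
    simp only [Function.comp_apply, dvd_mul_right, if_true]
    rw [Nat.mul_div_cancel_left m (Nat.pos_of_ne_zero hd), pow_mul]
    congr 2
    rw [ModularForm.coe_heckeDiagMatrix_smul hd, Function.Periodic.qParam,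
      Function.Periodic.qParam, ← Complex.exp_nat_mul]
    congr 1
    ring
  · intro m hm
    rw [if_neg, zero_mul]
    rintro ⟨e, rfl⟩
    exact hm ⟨e, rfl⟩

lemma levelRaise_injective {M d : ℕ} (h : d * M ∣ N) :
    Function.Injective (levelRaise (k := k) d h) := by
  have hd : d ≠ 0 := fun hd => NeZero.ne N (by simpa [hd] using h)
  have : NeZero M := ⟨fun hM => NeZero.ne N (by simpa [hM] using h)⟩
  intro f g hfg
  refine eq_of_forall_qCoeff fun n => ?_
  have := congrArg (fun F : CuspForm (Gamma0 N) k => qCoeff F (d * n)) hfg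
  simpa [qCoeff_levelRaise h, Nat.pos_of_ne_zero hd] using this

/-- The inclusion `S_k(Γ₀(M)) → S_k(Γ₀(N))`. -/
def levelIncl {M : ℕ} (h : M ∣ N) : CuspForm (Gamma0 M) k →ₗ[ℂ] CuspForm (Gamma0 N) k :=
  levelRaise 1 (by rwa [one_mul])

@[simp] lemma coe_levelIncl {M : ℕ} (h : M ∣ N) (f : CuspForm (Gamma0 M) k) :
    ⇑(levelIncl h f) = ⇑f := by
  ext τ
  rw [levelIncl, levelRaise_apply]
  congr 1
  exact UpperHalfPlane.ext (by simp [ModularForm.coe_heckeDiagMatrix_smul one_ne_zero])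

@[simp] lemma qCoeff_levelIncl {M : ℕ} (h : M ∣ N) (f : CuspForm (Gamma0 M) k) (n : ℕ) :
    qCoeff (levelIncl h f) n = qCoeff f n := by
  rw [coe_levelIncl]

lemma qCoeff_add (f g : CuspForm (Gamma0 N) k) (n : ℕ) :
    qCoeff (⇑(f + g)) n = qCoeff f n + qCoeff g n := by
  refine qCoeff_eq_of_hasSum _ (c := fun n => qCoeff f n + qCoeff g n) (fun τ => ?_) n
  simpa [add_mul] using (hasSum_qCoeff f τ).add (hasSum_qCoeff g τ)

lemma qCoeff_smul (c : ℂ) (f : CuspForm (Gamma0 N) k) (n : ℕ) :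
    qCoeff (⇑(c • f)) n = c * qCoeff f n := by
  refine qCoeff_eq_of_hasSum _ (c := fun n => c * qCoeff f n) (fun τ => ?_) n
  simpa [mul_assoc] using (hasSum_qCoeff f τ).mul_left c

/-- The `n`-th Fourier coefficient as a linear form. -/
def coeffLin (n : ℕ) : CuspForm (Gamma0 N) k →ₗ[ℂ] ℂ where
  toFun f := qCoeff f n
  map_add' f g := qCoeff_add f g n
  map_smul' c f := by simpa using qCoeff_smul c f n

@[simp] lemma coeffLin_apply (n : ℕ) (f : CuspForm (Gamma0 N) k) :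
    coeffLin n f = qCoeff f n := rfl

end Fermat.Agent.Newforms
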