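import Mathlib

/-!
# The fundamental domain of the modular group as a measure-theoretic one
-/

set_option autoImplicit false

noncomputable section

open MeasureTheory UpperHalfPlane Matrix.SpecialLinearGroup
open scoped MatrixGroups Pointwise ENNReal Function

namespace Fermat.Agent.Newforms

/-- The permutation of `ℍ` given by a real matrix. -/
abbrev moebius : GL (Fin 2) ℝ →* Equiv.Perm ℍ := MulAction.toPermHom (GL (Fin 2) ℝ) ℍ

/-- The permutation of `ℍ` given by an element of `SL(2, ℤ)`. -/
abbrev moebiusZ : SL(2, ℤ) →* Equiv.Perm ℍ := moebius.comp (mapGL ℝ)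

lemma moebiusZ_apply (γ : SL(2, ℤ)) (z : ℍ) : moebiusZ γ z = γ • z := rfl

/-- The modular group, as a group of transformations of `ℍ`. -/
abbrev modTrans : Subgroup (Equiv.Perm ℍ) := moebiusZ.range

lemma mem_range_moebius {g : Equiv.Perm ℍ} (hg : g ∈ modTrans) :
    ∃ A : GL (Fin 2) ℝ, moebius A = g := by
  obtain ⟨γ, rfl⟩ := hg
  exact ⟨mapGL ℝ γ, rfl⟩

lemma measurePreserving_moebius (A : GL (Fin 2) ℝ) :
    MeasurePreserving (moebius A : ℍ → ℍ) volume volume :=
  measurePreserving_smul A volume

/-- A group of transformations of `ℍ` contained in the modular group. -/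
abbrev ModSub := {H : Subgroup (Equiv.Perm ℍ) // H ≤ modTrans}

instance (H : ModSub) : Countable (H.1 : Subgroup (Equiv.Perm ℍ)) := by
  have : Countable (Matrix (Fin 2) (Fin 2) ℤ) := inferInstanceAs (Countable (Fin 2 → Fin 2 → ℤ))
  have : Countable SL(2, ℤ) := Subtype.countable
  have : Countable modTrans := (MonoidHom.rangeRestrict_surjective moebiusZ).countable
  exact (Subgroup.inclusion_injective H.2).countable

instance (H : ModSub) : MeasurableConstSMul (H.1 : Subgroup (Equiv.Perm ℍ)) ℍ :=
  ⟨fun g => by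
    obtain ⟨A, hA⟩ := mem_range_moebius (H.2 g.2)
    show Measurable fun z => (g : Equiv.Perm ℍ) z
    rw [← hA]
    exact (measurePreserving_moebius A).measurable⟩

instance (H : ModSub) : SMulInvariantMeasure (H.1 : Subgroup (Equiv.Perm ℍ)) ℍ volume :=
  ⟨fun g s hs => by
    obtain ⟨A, hA⟩ := mem_range_moebius (H.2 g.2)
    show volume ((fun z => (g : Equiv.Perm ℍ) z) ⁻¹' s) = volume s
    rw [← hA]
    exact (measurePreserving_moebius A).measure_preimage hs.nullMeasurableSet⟩

/-- The modular group as an element of `ModSub`. -/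
def fullSub : ModSub := ⟨modTrans, le_rfl⟩

lemma measurableSet_fdo : MeasurableSet ModularGroup.fdo := ModularGroup.isOpen_fdo.measurableSet

lemma volume_re_eq (c : ℝ) : volume {z : ℂ | z.re = c} = 0 := by
  have h : {z : ℂ | z.re = c} = Complex.measurableEquivRealProd ⁻¹' ({c} ×ˢ Set.univ) := by
    ext z; simp [Complex.measurableEquivRealProd]
  rw [h, Complex.volume_preserving_equiv_real_prod.measure_preimage
    ((measurableSet_singleton c).prod MeasurableSet.univ).nullMeasurableSet]
  simp [Measure.volume_eq_prod]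

/-- The boundary of the fundamental domain is null. -/
lemma volume_fd_diff_fdo : volume (ModularGroup.fd \ ModularGroup.fdo) = 0 := by
  have hsub : UpperHalfPlane.coe '' (ModularGroup.fd \ ModularGroup.fdo) ⊆
      ({z : ℂ | z.re = 1 / 2} ∪ {z : ℂ | z.re = -(1 / 2)}) ∪ Metric.sphere 0 1 := by
    rintro _ ⟨τ, ⟨⟨h1, h2⟩, h3⟩, rfl⟩
    rw [ModularGroup.fdo, Set.mem_ofPred_eq, not_and_or, not_lt, not_lt] at h3
    rcases h3 with h | h
    · right
      rw [Metric.mem_sphere, dist_zero_right, Complex.norm_def, le_antisymm h h1, Real.sqrt_one]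
    · left
      rcases abs_eq (by norm_num : (0 : ℝ) ≤ 1 / 2) |>.1 (le_antisymm h2 h) with e | e
      exacts [Or.inl e, Or.inr e]
  rw [volume_eq_lintegral]
  refine setLIntegral_measure_zero _ _ (measure_mono_null hsub ?_)
  refine measure_union_null (measure_union_null (volume_re_eq _) (volume_re_eq _)) ?_
  exact Measure.addHaar_sphere _ _ _

/-- `fdo` is a fundamental domain for the modular group acting on `ℍ`. -/
theorem isFundamentalDomain_fdo :
    IsFundamentalDomain (fullSub.1 : Subgroup (Equiv.Perm ℍ)) ModularGroup.fdo (volume : Measure ℍ) := by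
  refine IsFundamentalDomain.mk'' measurableSet_fdo.nullMeasurableSet ?_ ?_ fun g =>
    (measurePreserving_smul g volume).quasiMeasurePreserving
  · have hnull : ∀ g : (fullSub.1 : Subgroup (Equiv.Perm ℍ)), ∀ᵐ x ∂(volume : Measure ℍ),
        g • x ∉ ModularGroup.fd \ ModularGroup.fdo := fun g =>
      measure_eq_zero_iff_ae_notMem.1 <|
        (measurePreserving_smul g volume).quasiMeasurePreserving.preimage_null volume_fd_diff_fdo
    filter_upwards [ae_all_iff.2 hnull] with x hx
    obtain ⟨γ, hγ⟩ := ModularGroup.exists_smul_mem_fd x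
    refine ⟨⟨moebiusZ γ, γ, rfl⟩, ?_⟩
    by_contra hc
    exact hx ⟨moebiusZ γ, γ, rfl⟩ ⟨hγ, hc⟩
  · rintro ⟨g, γ, rfl⟩ hne
    refine Disjoint.aedisjoint (Set.disjoint_left.2 ?_)
    rintro _ ⟨x, hx, rfl⟩ hgx
    refine hne (Subtype.ext (Equiv.ext fun z => ?_))
    show γ • z = z
    rcases ModularGroup.eq_one_or_neg_one_of_mem_fdo_mem_fdo hx (g := γ) hgx with rfl | rfl
    · exact one_smul _ z
    · rw [ModularGroup.SL_neg_smul, one_smul]

lemma volume_fdo_pos : 0 < volume ModularGroup.fdo := by
  rw [volume_eq_lintegral]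
  have hopen : IsOpen (UpperHalfPlane.coe '' ModularGroup.fdo) :=
    UpperHalfPlane.isOpenEmbedding_coe.isOpenMap _ ModularGroup.isOpen_fdo
  have hne : (UpperHalfPlane.coe '' ModularGroup.fdo).Nonempty := by
    refine Set.Nonempty.image _ ⟨⟨2 * Complex.I, by simp⟩, ?_⟩
    simp [ModularGroup.fdo, Complex.normSq_apply]; norm_num
  rw [setLIntegral_pos_iff]
  · refine (hopen.measure_pos volume hne).trans_le (measure_mono fun z hz => ⟨?_, hz⟩)
    obtain ⟨τ, -, rfl⟩ := hz
    simp [Function.mem_support, τ.im_ne_zero]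
  · fun_prop

lemma volume_fdo_lt_top : volume ModularGroup.fdo < ⊤ := by
  rw [volume_eq_lintegral]
  set box : Set ℂ :=
    Complex.measurableEquivRealProd ⁻¹' (Set.Icc (-1 / 2 : ℝ) (1 / 2) ×ˢ Set.Ioi (1 / 2 : ℝ))
  have hsub : UpperHalfPlane.coe '' ModularGroup.fdo ⊆ box := by
    rintro _ ⟨τ, hτ, rfl⟩
    have h3 := ModularGroup.three_lt_four_mul_im_sq_of_mem_fdo hτ
    have h2 := abs_lt.1 hτ.2
    have him := τ.im_pos
    simp only [box, Set.mem_preimage, Complex.measurableEquivRealProd_apply, Set.mem_prod,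
      Set.mem_Icc, Set.mem_Ioi, UpperHalfPlane.coe_re, UpperHalfPlane.coe_im]
    exact ⟨⟨by linarith [h2.1], by linarith [h2.2]⟩, by nlinarith⟩
  refine lt_of_le_of_lt (lintegral_mono_set hsub) ?_
  have hint : IntegrableOn (fun p : ℝ × ℝ => (1 / p.2) ^ 2)
      (Set.Icc (-1 / 2 : ℝ) (1 / 2) ×ˢ Set.Ioi (1 / 2 : ℝ)) := by
    rw [IntegrableOn, Measure.volume_eq_prod, ← Measure.prod_restrict]
    refine Integrable.congr (Integrable.mul_prod (f := fun _ : ℝ => (1 : ℝ))
      (g := fun y : ℝ => y ^ (-2 : ℝ)) (integrableOn_const (by simp))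
      (integrableOn_Ioi_rpow_of_lt (by norm_num) (by norm_num))) ?_
    refine Filter.Eventually.of_forall fun p => ?_
    simp only [one_mul, one_div, inv_pow]
    rw [show (-2 : ℝ) = ((-2 : ℤ) : ℝ) by norm_num, Real.rpow_intCast, zpow_neg, zpow_two, pow_two]
  have h := hint.2
  rw [hasFiniteIntegral_iff_enorm] at h
  refine lt_of_eq_of_lt ?_ h
  rw [← Complex.volume_preserving_equiv_real_prod.setLIntegral_comp_preimage_emb
    Complex.measurableEquivRealProd.measurableEmbedding]
  refine lintegral_congr fun z => ?_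
  simp [← ofReal_norm, ENNReal.ofReal, Real.toNNReal,
    Complex.measurableEquivRealProd]
  norm_cast
  ext
  simp [sq_nonneg]

section subgroup

variable {E : Type*} [NormedAddCommGroup E] [NormedSpace ℝ E]

/-- A fundamental domain of a finite index subgroup, with the integrals of invariant functions
multiplied by the index. -/
theorem exists_domain_subgroup (H K : ModSub) (hle : K.1 ≤ H.1) (hfin : K.1.relIndex H.1 ≠ 0)
    {s : Set ℍ} (hsm : MeasurableSet s)
    (hs : IsFundamentalDomain (H.1 : Subgroup (Equiv.Perm ℍ)) s (volume : Measure ℍ)) :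
    ∃ t : Set ℍ, MeasurableSet t ∧
      IsFundamentalDomain (K.1 : Subgroup (Equiv.Perm ℍ)) t (volume : Measure ℍ) ∧
      volume t = K.1.relIndex H.1 * volume s ∧
      ∀ φ : ℍ → E, (∀ (g : H.1) (x : ℍ), φ (g • x) = φ x) → IntegrableOn φ s →
        IntegrableOn φ t ∧ ∫ x in t, φ x = (K.1.relIndex H.1) • ∫ x in s, φ x := by
  classical
  let K' : Subgroup H.1 := K.1.subgroupOf H.1
  have : K'.FiniteIndex := ⟨hfin⟩
  have : Fintype (H.1 ⧸ K') := Subgroup.fintypeQuotientOfFiniteIndex
  let piece : H.1 ⧸ K' → Set ℍ := fun q => (fun x => (q.out : H.1) • x) ⁻¹' s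
  have hpm : ∀ q, MeasurableSet (piece q) := fun q => measurable_const_smul _ hsm
  -- the translates of `s` by distinct cosets are a.e. disjoint
  have hdisj : ∀ g g' : H.1, g ≠ g' →
      AEDisjoint (volume : Measure ℍ) ((fun x => g • x) ⁻¹' s) ((fun x => g' • x) ⁻¹' s) := by
    intro g g' hne
    rw [Set.preimage_smul, Set.preimage_smul]
    exact hs.aedisjoint fun he => hne (inv_injective he)
  refine ⟨⋃ q, piece q, MeasurableSet.iUnion hpm, ?_, ?_, fun φ hφ hint => ?_⟩
  · refine IsFundamentalDomain.mk'' (MeasurableSet.iUnion hpm).nullMeasurableSet ?_ ?_ fun g =>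
      (measurePreserving_smul g volume).quasiMeasurePreserving
    · filter_upwards [hs.ae_covers] with x ⟨g, hg⟩
      let q : H.1 ⧸ K' := QuotientGroup.mk g
      have hk : (q.out : H.1)⁻¹ * g ∈ K' := QuotientGroup.eq.1 q.out_eq'
      refine ⟨⟨((q.out : H.1)⁻¹ * g : H.1), hk⟩, Set.mem_iUnion.2 ⟨q, ?_⟩⟩
      show (q.out : H.1) • (((q.out : H.1)⁻¹ * g : H.1) • x) ∈ s
      rwa [← mul_smul, mul_inv_cancel_left]
    · intro k hk1
      rw [Set.smul_set_iUnion]
      refine AEDisjoint.iUnion_left_iff.2 fun q => AEDisjoint.iUnion_right_iff.2 fun r => ?_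
      let k' : H.1 := ⟨k.1, hle k.2⟩
      have heq : k • piece q = (fun x => ((q.out : H.1) * k'⁻¹) • x) ⁻¹' s := by
        ext x
        rw [Set.mem_smul_set_iff_inv_smul_mem, Set.mem_preimage, Set.mem_preimage, mul_smul]
        rfl
      rw [heq]
      refine hdisj _ _ fun he => hk1 ?_
      have hk' : k'⁻¹ ∈ K' := by simp [K', k', Subgroup.mem_subgroupOf]
      have hqr : q = r := by
        rw [← q.out_eq', ← r.out_eq', ← he, QuotientGroup.eq]
        simpa using hk'
      subst hqr
      have h1 : k'⁻¹ = 1 := mul_eq_left.1 he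
      have h2 : k' = 1 := inv_eq_one.1 h1
      exact Subtype.ext (congrArg (fun a : H.1 => (a : Equiv.Perm ℍ)) h2)
  all_goals
    have hpd : Pairwise (AEDisjoint (volume : Measure ℍ) on piece) := fun q r hqr =>
      hdisj _ _ fun he => hqr (by rw [← q.out_eq', ← r.out_eq', he])
  · rw [measure_iUnion₀ hpd fun q => (hpm q).nullMeasurableSet, tsum_fintype]
    simp only [piece]
    rw [Finset.sum_congr rfl fun q _ => measure_preimage_smul volume (q.out : H.1) s,
      Finset.sum_const, Finset.card_univ, nsmul_eq_mul, ← Nat.card_eq_fintype_card]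
    rfl
  · have hcomp : ∀ g : H.1, (φ ∘ fun x => g • x) = φ := fun g => funext (hφ g)
    have hpi : ∀ q, IntegrableOn φ (piece q) := fun q => by
      have h := ((measurePreserving_smul (q.out : H.1) volume).integrableOn_comp_preimage
        (MeasurableEquiv.smul (q.out : H.1)).measurableEmbedding (f := φ) (s := s)).2 hint
      rwa [hcomp] at h
    have hiu : IntegrableOn φ (⋃ q, piece q) := integrableOn_finite_iUnion.2 hpi
    refine ⟨hiu, ?_⟩
    rw [integral_iUnion_ae (fun q => (hpm q).nullMeasurableSet) hpd hiu, tsum_fintype]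
    have : ∀ q, ∫ x in piece q, φ x = ∫ x in s, φ x := fun q => by
      have h := (measurePreserving_smul (q.out : H.1) volume).setIntegral_preimage_emb
        (MeasurableEquiv.smul (q.out : H.1)).measurableEmbedding φ s
      simpa only [hφ] using h
    rw [Finset.sum_congr rfl fun q _ => this q, Finset.sum_const, Finset.card_univ,
      ← Nat.card_eq_fintype_card]
    rfl

end subgroup

end Fermat.Agent.Newforms
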