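import Fermat.Agent.Newforms.Basic
import Fermat.Prelude.Sol.S_ModularForm_heckeT_slash_eq_self_of_mem_Gamma0

/-!
# Representatives of the double coset of `diag(1, ℓ)` in `Γ₀(M)`
-/

set_option autoImplicit false

noncomputable section

open CongruenceSubgroup Matrix.SpecialLinearGroup UpperHalfPlane
open scoped MatrixGroups ModularForm OnePoint

namespace Fermat.Agent.Newforms

open P2MW.S_ModularForm_heckeT_slash_eq_self_of_mem_Gamma0.ModularForm.HeckeSlashInvariance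

/-- An integral matrix, as a real one. -/
abbrev realMat (A : Matrix (Fin 2) (Fin 2) ℤ) : Matrix (Fin 2) (Fin 2) ℝ :=
  A.map (Int.castRingHom ℝ)

lemma mapGL_eq_realMat (γ : SL(2, ℤ)) :
    ((mapGL ℝ γ : GL (Fin 2) ℝ) : Matrix (Fin 2) (Fin 2) ℝ) =
      realMat (γ : Matrix (Fin 2) (Fin 2) ℤ) := by
  ext i j
  simp [realMat]

variable {ℓ : ℕ} [Fact ℓ.Prime]

lemma exists_heckeRep_eq (x : OnePoint (ZMod ℓ)) :
    ∃ A : Matrix (Fin 2) (Fin 2) ℤ, A 1 0 = 0 ∧ A.det = ℓ ∧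
      (heckeRep ℓ x : Matrix (Fin 2) (Fin 2) ℝ) = realMat A := by
  have hℓ : ℓ ≠ 0 := (Fact.out : ℓ.Prime).ne_zero
  induction x using OnePoint.rec with
  | infty =>
    refine ⟨!![(ℓ : ℤ), 0; 0, 1], rfl, by simp [Matrix.det_fin_two_of], ?_⟩
    rw [heckeRep_infty, ModularForm.val_heckeDiagMatrix hℓ]
    ext i j; fin_cases i <;> fin_cases j <;> simp [realMat]
  | coe j =>
    refine ⟨!![1, (j.val : ℤ); 0, (ℓ : ℤ)], rfl, by simp [Matrix.det_fin_two_of], ?_⟩
    rw [heckeRep_coe, ModularForm.val_heckeMatrix hℓ]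
    ext i k; fin_cases i <;> fin_cases k <;> simp [realMat]

end Fermat.Agent.Newforms
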